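import Mathlib.Algebra.BigOperators.Fin
import Mathlib.Analysis.SpecialFunctions.Trigonometric.Basic
import Mathlib.Analysis.SpecialFunctions.Pow.Continuity
import Mathlib.Combinatorics.SimpleGraph.Clique
import Mathlib.Data.ZMod.Basic
import Mathlib.Tactic

/-!
# The Shannon capacity of the pentagon

Lovász (1979): tensor powers of an orthonormal representation bound the independence numbers of
the strong powers of a graph, and his umbrella gives `√5` for the pentagon.
-/

set_option autoImplicit false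

noncomputable section

namespace FA.ShannonPentagon

open Finset Filter
open scoped Topology

/-- Bessel's inequality for a finite orthonormal family of coordinate vectors. -/
theorem bessel {ι d : Type*} [Fintype d] (S : Finset ι) (w : ι → d → ℝ) (c : d → ℝ)
    (hw : ∀ x ∈ S, ∑ f, w x f * w x f = 1)
    (horth : ∀ x ∈ S, ∀ y ∈ S, x ≠ y → ∑ f, w x f * w y f = 0) :
    ∑ x ∈ S, (∑ f, c f * w x f) ^ 2 ≤ ∑ f, c f * c f := by
  classical
  obtain ⟨a, ha⟩ : ∃ a : ι → ℝ, a = fun x => ∑ f, c f * w x f := ⟨_, rfl⟩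
  obtain ⟨u, hu⟩ : ∃ u : d → ℝ, u = fun f => ∑ x ∈ S, a x * w x f := ⟨_, rfl⟩
  have h1 : ∑ f, c f * u f = ∑ x ∈ S, a x ^ 2 := by
    simp only [hu, mul_sum]
    rw [sum_comm]
    refine sum_congr rfl fun x _ => ?_
    rw [sq]
    conv_rhs => arg 2; rw [ha]
    simp only [mul_sum]
    exact sum_congr rfl fun f _ => by ring
  have h2 : ∑ f, u f * u f = ∑ x ∈ S, a x ^ 2 := by
    simp only [hu, sum_mul, mul_sum]
    rw [sum_comm]
    refine sum_congr rfl fun x hx => ?_
    rw [sum_comm, sum_eq_single_of_mem x hx]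
    · rw [show ∑ f, a x * w x f * (a x * w x f) = a x ^ 2 * ∑ f, w x f * w x f by
        rw [mul_sum]; exact sum_congr rfl fun f _ => by ring, hw x hx, mul_one]
    · intro y hy hne
      rw [show ∑ f, a y * w y f * (a x * w x f) = a y * a x * ∑ f, w y f * w x f by
        rw [mul_sum]; exact sum_congr rfl fun f _ => by ring, horth y hy x hx hne, mul_zero]
  have h3 : 0 ≤ ∑ f, (c f - u f) * (c f - u f) := sum_nonneg fun f _ => mul_self_nonneg _
  have h4 : ∑ f, (c f - u f) * (c f - u f) =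
      ∑ f, c f * c f - 2 * ∑ f, c f * u f + ∑ f, u f * u f := by
    rw [mul_sum, ← sum_sub_distrib, ← sum_add_distrib]
    exact sum_congr rfl fun f _ => by ring
  rw [h4, h1, h2] at h3
  simp only [ha] at h3
  linarith

/-- **The Lovász bound.** If `v` is an orthonormal representation of `G` whose handle `c` has
`⟨c, v i⟩ ^ 2 ≥ 1 / θ`, independent sets of strong powers have at most `θ ^ n` elements. -/
theorem lovasz_bound {α d : Type*} [Fintype d] (G : SimpleGraph α) (v : α → d → ℝ) (c : d → ℝ)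
    (hc : ∑ f, c f * c f = 1) (hv : ∀ i, ∑ f, v i f * v i f = 1)
    (horth : ∀ i j, i ≠ j → ¬G.Adj i j → ∑ f, v i f * v j f = 0) {θ : ℝ} (hθ : 0 < θ)
    (hhandle : ∀ i, 1 / θ ≤ (∑ f, c f * v i f) ^ 2) {n : ℕ} (S : Finset (Fin n → α))
    (hS : ∀ x ∈ S, ∀ y ∈ S, x ≠ y → ∃ i, x i ≠ y i ∧ ¬G.Adj (x i) (y i)) :
    (#S : ℝ) ≤ θ ^ n := by
  classical
  have hmul : ∀ p q : Fin n → d → ℝ,
      ∑ f : Fin n → d, (∏ i, p i (f i)) * ∏ i, q i (f i) = ∏ i, ∑ e, p i e * q i e := by
    intro p q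
    rw [Fintype.prod_sum]
    exact sum_congr rfl fun f _ => prod_mul_distrib.symm
  have h := bessel S (fun x (f : Fin n → d) => ∏ i, v (x i) (f i)) (fun f => ∏ i, c (f i))
    (fun x _ => by rw [hmul (fun i => v (x i)) (fun i => v (x i))]; simp [hv])
    fun x hx y hy hne => by
      obtain ⟨i, hi, hadj⟩ := hS x hx y hy hne
      rw [hmul (fun i => v (x i)) (fun i => v (y i))]
      exact prod_eq_zero (mem_univ i) (horth _ _ hi hadj)
  simp only [hmul (fun _ => c) (fun _ => c), hc, prod_const_one] at h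
  have hlow : ∀ x ∈ S,
      (1 / θ) ^ n ≤ (∑ f : Fin n → d, (∏ i, c (f i)) * ∏ i, v (x i) (f i)) ^ 2 := by
    intro x _
    rw [hmul (fun _ => c) (fun i => v (x i)), ← prod_pow]
    calc (1 / θ) ^ n = ∏ _i : Fin n, 1 / θ := by simp
      _ ≤ _ := prod_le_prod (fun i _ => by positivity) fun i _ => hhandle _
  have := (card_nsmul_le_sum _ _ _ hlow).trans h
  rwa [nsmul_eq_mul, div_pow, one_pow, mul_one_div, div_le_one (pow_pos hθ n)] at this

/-- The pentagon. -/
def pentagon : SimpleGraph (ZMod 5) := SimpleGraph.fromRel fun i j => j = i + 1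

/-- The `n`-th strong power of the pentagon. -/
def pentagonPow (n : ℕ) : SimpleGraph (Fin n → ZMod 5) :=
  SimpleGraph.fromRel fun x y => ∀ i, x i = y i ∨ pentagon.Adj (x i) (y i)

/-- The angle of the `i`-th rib of the umbrella. -/
def angle (i : ZMod 5) : ℝ := 2 * Real.pi * (i.val : ℝ) / 5

/-- Lovász's umbrella. -/
def umbrella (i : ZMod 5) : Fin 3 → ℝ :=
  ![Real.sqrt (1 / Real.sqrt 5), Real.sqrt (1 - 1 / Real.sqrt 5) * Real.cos (angle i),
    Real.sqrt (1 - 1 / Real.sqrt 5) * Real.sin (angle i)]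

theorem one_div_sqrt_five_mem : 0 ≤ 1 / Real.sqrt 5 ∧ 0 ≤ 1 - 1 / Real.sqrt 5 := by
  refine ⟨by positivity, sub_nonneg.2 ?_⟩
  rw [div_le_one (by positivity)]
  exact Real.one_le_sqrt.2 (by norm_num)

theorem umbrella_inner (i j : ZMod 5) : ∑ f, umbrella i f * umbrella j f =
    1 / Real.sqrt 5 + (1 - 1 / Real.sqrt 5) * Real.cos (angle i - angle j) := by
  obtain ⟨h1, h2⟩ := one_div_sqrt_five_mem
  rw [Fin.sum_univ_three, Real.cos_sub]
  simp only [umbrella, Matrix.cons_val_zero, Matrix.cons_val_one, Matrix.cons_val]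
  rw [Real.mul_self_sqrt h1]
  have := Real.mul_self_sqrt h2
  linear_combination (Real.cos (angle i) * Real.cos (angle j) +
    Real.sin (angle i) * Real.sin (angle j)) * this

theorem umbrella_orth {i j : ZMod 5} (hne : i ≠ j) (hadj : ¬pentagon.Adj i j) :
    ∑ f, umbrella i f * umbrella j f = 0 := by
  rw [umbrella_inner]
  have hcases : ∀ i j : ZMod 5, i ≠ j → ¬(i ≠ j ∧ (j = i + 1 ∨ i = j + 1)) →
      (i.val = j.val + 2 ∨ i.val = j.val + 3) ∨ j.val = i.val + 2 ∨ j.val = i.val + 3 := by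
    decide
  have h4 : Real.cos (4 * Real.pi / 5) = -((1 + Real.sqrt 5) / 4) := by
    rw [← Real.cos_pi_div_five, ← Real.cos_pi_sub]; ring_nf
  have h6 : Real.cos (6 * Real.pi / 5) = -((1 + Real.sqrt 5) / 4) := by
    rw [← Real.cos_pi_div_five, ← Real.cos_add_pi]; ring_nf
  have key : Real.cos (angle i - angle j) = -((1 + Real.sqrt 5) / 4) := by
    rcases hcases i j hne (by simpa [pentagon, SimpleGraph.fromRel_adj] using hadj) with
      (h | h) | h | h
    · rw [← h4, angle, angle, h]; push_cast; ring_nf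
    · rw [← h6, angle, angle, h]; push_cast; ring_nf
    · rw [← h4, ← Real.cos_neg, angle, angle, h]; push_cast; ring_nf
    · rw [← h6, ← Real.cos_neg, angle, angle, h]; push_cast; ring_nf
  rw [key]
  have h5 := Real.mul_self_sqrt (show (0:ℝ) ≤ 5 by norm_num)
  field_simp
  linear_combination -h5

theorem card_le_sqrt_five_pow {n : ℕ} {S : Finset (Fin n → ZMod 5)}
    (hS : (pentagonPow n).IsIndepSet S) : (#S : ℝ) ≤ Real.sqrt 5 ^ n := by
  refine lovasz_bound pentagon umbrella ![1, 0, 0] (by simp [Fin.sum_univ_three]) (fun i => ?_)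
    (fun i j h h' => umbrella_orth h h') (by positivity) (fun i => ?_) S fun x hx y hy hne => ?_
  · rw [umbrella_inner, sub_self, Real.cos_zero]; ring
  · simp [Fin.sum_univ_three, umbrella]
  · have h := hS hx hy hne
    simp only [pentagonPow, SimpleGraph.fromRel_adj, not_and, not_or] at h
    obtain ⟨i, hi⟩ := not_forall.1 (h hne).1
    exact ⟨i, (not_or.1 hi).1, (not_or.1 hi).2⟩

theorem indepNum_le (n : ℕ) : ((pentagonPow n).indepNum : ℝ) ≤ Real.sqrt 5 ^ n := by
  obtain ⟨S, hS⟩ := (pentagonPow n).exists_isNIndepSet_indepNum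
  rw [← hS.card_eq]
  exact card_le_sqrt_five_pow hS.isIndepSet

theorem five_pow_le (n : ℕ) : 5 ^ (n / 2) ≤ (pentagonPow n).indepNum := by
  classical
  obtain ⟨g, hg⟩ : ∃ g : (Fin (n / 2) → ZMod 5) → Fin n → ZMod 5,
      g = fun (a : Fin (n / 2) → ZMod 5) (i : Fin n) =>
      if h : (i : ℕ) / 2 < n / 2 then
        (if (i : ℕ) % 2 = 0 then a ⟨_, h⟩ else 2 * a ⟨_, h⟩) else 0 := ⟨_, rfl⟩
  have hval : ∀ (a : Fin (n / 2) → ZMod 5) (j : Fin (n / 2)),
      g a ⟨2 * j, by omega⟩ = a j ∧ g a ⟨2 * j + 1, by omega⟩ = 2 * a j := fun a j => by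
    constructor
    · simp [hg]
    · have e : (2 * (j : ℕ) + 1) / 2 = j := by omega
      simp [hg, e]
  have hinj : Function.Injective g := fun a b h => funext fun j => by
    rw [← (hval a j).1, ← (hval b j).1, h]
  have hsep : ∀ s t : ZMod 5, s ≠ t → (s = t ∨ s ≠ t ∧ (t = s + 1 ∨ s = t + 1)) →
      ¬(2 * s = 2 * t ∨ 2 * s ≠ 2 * t ∧ (2 * t = 2 * s + 1 ∨ 2 * s = 2 * t + 1)) := by decide
  have hadj : ∀ a b, a ≠ b →
      ¬∀ i, g a i = g b i ∨ pentagon.Adj (g a i) (g b i) := fun a b hab hall => by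
    obtain ⟨j, hj⟩ := Function.ne_iff.1 hab
    have h1 := hall ⟨2 * j, by omega⟩
    have h2 := hall ⟨2 * j + 1, by omega⟩
    rw [(hval a j).1, (hval b j).1] at h1
    rw [(hval a j).2, (hval b j).2] at h2
    simp only [pentagon, SimpleGraph.fromRel_adj] at h1 h2
    exact hsep _ _ hj h1 h2
  have hind : (pentagonPow n).IsIndepSet (univ.image g : Finset (Fin n → ZMod 5)) := by
    rintro x hx y hy hne
    obtain ⟨a, -, rfl⟩ := mem_image.1 (mem_coe.1 hx)
    obtain ⟨b, -, rfl⟩ := mem_image.1 (mem_coe.1 hy)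
    simp only [pentagonPow, SimpleGraph.fromRel_adj, not_and, not_or]
    exact fun _ => ⟨hadj a b fun h => hne (h ▸ rfl), hadj b a fun h => hne (h ▸ rfl)⟩
  refine le_trans (le_of_eq ?_) hind.card_le_indepNum
  rw [card_image_of_injective _ hinj]
  simp

/-- **Lovász.** The Shannon capacity of the pentagon is `√5`. -/
theorem tendsto_indepNum :
    Tendsto (fun n : ℕ => ((pentagonPow n).indepNum : ℝ) ^ ((n : ℝ)⁻¹)) atTop
      (𝓝 (Real.sqrt 5)) := by
  obtain ⟨s, hs⟩ : ∃ s, s = Real.sqrt 5 := ⟨_, rfl⟩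
  rw [← hs]
  have hs1 : 1 ≤ s := hs ▸ Real.one_le_sqrt.2 (by norm_num)
  refine tendsto_of_tendsto_of_tendsto_of_le_of_le' (g := fun n : ℕ => s ^ (1 - (n : ℝ)⁻¹))
    ?_ tendsto_const_nhds ((eventually_ge_atTop 1).mono fun n hn => ?_)
    ((eventually_ge_atTop 1).mono fun n hn => ?_)
  · have h : Tendsto (fun n : ℕ => 1 - (n : ℝ)⁻¹) atTop (𝓝 (1 - 0)) :=
      tendsto_const_nhds.sub (tendsto_inv_atTop_zero.comp tendsto_natCast_atTop_atTop)
    have h' := ((Real.continuous_const_rpow (by linarith : s ≠ 0)).tendsto _).comp h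
    simpa [Function.comp_def] using h'
  · have h5 : s ^ (n - 1) ≤ ((pentagonPow n).indepNum : ℝ) := by
      calc s ^ (n - 1) ≤ s ^ (2 * (n / 2)) := pow_le_pow_right₀ hs1 (by omega)
        _ = ((5 ^ (n / 2) : ℕ) : ℝ) := by
          rw [pow_mul, hs, Real.sq_sqrt (by norm_num)]; norm_num
        _ ≤ _ := Nat.cast_le.2 (five_pow_le n)
    calc s ^ (1 - (n : ℝ)⁻¹) = (s ^ (n - 1)) ^ ((n : ℝ)⁻¹) := by
          rw [← Real.rpow_natCast, ← Real.rpow_mul (by linarith), Nat.cast_sub hn]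
          congr 1
          field_simp
          simp
      _ ≤ _ := Real.rpow_le_rpow (by positivity) h5 (by positivity)
  · calc ((pentagonPow n).indepNum : ℝ) ^ ((n : ℝ)⁻¹) ≤ (s ^ n) ^ ((n : ℝ)⁻¹) :=
          Real.rpow_le_rpow (by positivity) (hs ▸ indepNum_le n) (by positivity)
      _ = s := Real.pow_rpow_inv_natCast (by linarith) (by omega)

end FA.ShannonPentagon
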